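import Mathlib

/-!
# Row LT, tower T2, pre-leaf SPEC-ABS (helper751): joint eigenbasis

OFF-MAIN.  Mathlib only, no definitions.

Abstract core of the discreteness of the cuspidal spectrum (Gelfand--Piatetski-Shapiro form):
`H` a complex Hilbert space, `𝒯` a set of pairwise commuting bounded operators which is closed
under adjoints, `Kc ⊆ 𝒯` a subset of COMPACT operators with trivial common kernel.  Then

* `exists_hilbertBasis_joint_eigen751`: `H` has a Hilbert basis of joint eigenvectors of `𝒯`;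
* `finiteDimensional_iInf_eigenspace751`: every joint eigenspace is finite-dimensional;
* `countable_of_orthonormal751`: if `H` is separable, every orthonormal family is countable.

(Mathlib has the spectral theorem for ONE compact self-adjoint operator:
`ContinuousLinearMap.orthogonalComplement_iSup_eigenspaces_eq_bot`.)

In the application `𝒯` = the Hecke operators `T_v`, `S_v` (`v ∤ 𝔫`) and their adjoints together
with the archimedean spherical convolution operators `R(f_∞)`, `Kc` = the latter (compact on the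
cuspidal space by reduction theory, trivial common kernel by an approximate identity).
-/

set_option autoImplicit false

namespace Fermat.Agent.LT.H751

open Module End

section FiniteDim

variable {V : Type*} [AddCommGroup V] [Module ℂ V]

/-- A commuting set of endomorphisms has a common eigenvector in every nonzero finite-dimensional
invariant subspace (no normality needed). -/
theorem exists_joint_eigenvector_of_finiteDimensional751 (𝒮 : Set (V →ₗ[ℂ] V))
    (hcomm : ∀ S ∈ 𝒮, ∀ T ∈ 𝒮, ∀ x : V, S (T x) = T (S x))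
    (W : Submodule ℂ V) [FiniteDimensional ℂ W] (hW : W ≠ ⊥)
    (hinv : ∀ S ∈ 𝒮, ∀ w ∈ W, S w ∈ W) :
    ∃ v ∈ W, v ≠ 0 ∧ ∀ S ∈ 𝒮, ∃ c : ℂ, S v = c • v := by
  -- strong induction on the dimension of `W`
  suffices h : ∀ n : ℕ, ∀ W : Submodule ℂ V, FiniteDimensional ℂ W → finrank ℂ W = n → W ≠ ⊥ →
      (∀ S ∈ 𝒮, ∀ w ∈ W, S w ∈ W) → ∃ v ∈ W, v ≠ 0 ∧ ∀ S ∈ 𝒮, ∃ c : ℂ, S v = c • v from
    h _ W inferInstance rfl hW hinv
  intro n
  induction n using Nat.strong_induction_on with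
  | _ n ih =>
    intro W hfd hn hW hinv
    by_cases hsc : ∀ S ∈ 𝒮, ∃ c : ℂ, ∀ w ∈ W, S w = c • w
    · obtain ⟨v, hvW, hv0⟩ := (Submodule.ne_bot_iff W).1 hW
      exact ⟨v, hvW, hv0, fun S hS => (hsc S hS).imp fun c hc => hc v hvW⟩
    · push Not at hsc
      obtain ⟨S, hS, hSns⟩ := hsc
      -- an eigenvalue of `S` on `W`
      have : Nontrivial W := Submodule.nontrivial_iff_ne_bot.2 hW
      let S' : End ℂ W := S.restrict (hinv S hS)
      obtain ⟨c, hc⟩ := Module.End.exists_eigenvalue S'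
      obtain ⟨⟨w₀, hw₀W⟩, hw₀⟩ := hc.exists_hasEigenvector
      have hw₀eq : S w₀ = c • w₀ := by
        have := hw₀.apply_eq_smul
        have h2 := congrArg Subtype.val this
        simpa [S'] using h2
      have hw₀ne : w₀ ≠ 0 := fun h => hw₀.2 (Subtype.ext h)
      -- the smaller invariant subspace
      let W' : Submodule ℂ V := W ⊓ eigenspace (S : End ℂ V) c
      have hW'le : W' ≤ W := inf_le_left
      have hW'ne : W' ≠ ⊥ := by
        refine (Submodule.ne_bot_iff _).2 ⟨w₀, ⟨hw₀W, ?_⟩, hw₀ne⟩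
        exact mem_eigenspace_iff.2 hw₀eq
      have hW'lt : W' < W := by
        refine lt_of_le_of_ne hW'le fun h => ?_
        obtain ⟨w, hwW, hw⟩ := hSns c
        refine hw ?_
        have : w ∈ W' := h ▸ hwW
        exact mem_eigenspace_iff.1 this.2
      have hW'inv : ∀ T ∈ 𝒮, ∀ w ∈ W', T w ∈ W' := by
        intro T hT w hw
        refine ⟨hinv T hT w hw.1, mem_eigenspace_iff.2 ?_⟩
        have h1 : S w = c • w := mem_eigenspace_iff.1 hw.2
        rw [hcomm S hS T hT w, h1, map_smul]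
      have : FiniteDimensional ℂ W' := Submodule.finiteDimensional_of_le hW'le
      have hlt : finrank ℂ W' < n := hn ▸ Submodule.finrank_lt_finrank_of_lt hW'lt
      obtain ⟨v, hv, hv0, hvS⟩ := ih _ hlt W' inferInstance rfl hW'ne hW'inv
      exact ⟨v, hW'le hv, hv0, hvS⟩

end FiniteDim

section Hilbert

variable {H : Type*} [NormedAddCommGroup H] [InnerProductSpace ℂ H] [CompleteSpace H]

open ContinuousLinearMap

/-- The orthogonal complement of a subspace which is invariant under an adjoint-closed set of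
operators is invariant. -/
theorem orthogonal_invariant751 (𝒯 : Set (H →L[ℂ] H)) (hstar : ∀ T ∈ 𝒯, adjoint T ∈ 𝒯)
    (N : Submodule ℂ H) (hN : ∀ T ∈ 𝒯, ∀ y ∈ N, T y ∈ N) :
    ∀ T ∈ 𝒯, ∀ x ∈ Nᗮ, T x ∈ Nᗮ := by
  intro T hT x hx
  rw [Submodule.mem_orthogonal] at hx ⊢
  intro y hy
  rw [← adjoint_inner_left]
  exact hx _ (hN _ (hstar T hT) y hy)

/-- **Key step.**  In the nonzero orthogonal complement of an invariant subspace there is a joint
eigenvector. -/
theorem exists_joint_eigenvector_orthogonal751 (𝒯 Kc : Set (H →L[ℂ] H))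
    (hcomm : ∀ S ∈ 𝒯, ∀ T ∈ 𝒯, S * T = T * S)
    (hstar : ∀ T ∈ 𝒯, adjoint T ∈ 𝒯)
    (hK : Kc ⊆ 𝒯) (hcpt : ∀ k ∈ Kc, IsCompactOperator k)
    (hnd : ∀ x : H, (∀ k ∈ Kc, k x = 0) → x = 0)
    (N : Submodule ℂ H) (hN : ∀ T ∈ 𝒯, ∀ y ∈ N, T y ∈ N) (hP : Nᗮ ≠ ⊥) :
    ∃ v ∈ Nᗮ, v ≠ 0 ∧ ∀ T ∈ 𝒯, ∃ c : ℂ, T v = c • v := by
  have hPinv := orthogonal_invariant751 𝒯 hstar N hN
  obtain ⟨x, hxP, hx0⟩ := (Submodule.ne_bot_iff _).1 hP
  -- a compact operator of the family which does not kill `x`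
  obtain ⟨k, hk, hkx⟩ : ∃ k ∈ Kc, k x ≠ 0 := by
    by_contra h
    push Not at h
    exact hx0 (hnd x h)
  have hkT : k ∈ 𝒯 := hK hk
  have hksT : adjoint k ∈ 𝒯 := hstar k hkT
  -- `A = k† k` is compact, self-adjoint, commutes with the family, does not kill `x`
  set A : H →L[ℂ] H := adjoint k * k with hA
  have hAcpt : IsCompactOperator A := (hcpt k hk).clm_comp (adjoint k)
  have hAsa : IsSelfAdjoint A := by
    rw [hA, ← star_eq_adjoint]
    exact IsSelfAdjoint.star_mul_self k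
  have hAsym : (A : H →ₗ[ℂ] H).IsSymmetric := hAsa.isSymmetric
  have hAcomm : ∀ T ∈ 𝒯, ∀ y : H, A (T y) = T (A y) := by
    intro T hT y
    have h1 : k * T = T * k := hcomm k hkT T hT
    have h2 : adjoint k * T = T * adjoint k := hcomm _ hksT T hT
    have h3 : A * T = T * A := by
      rw [hA, mul_assoc, h1, ← mul_assoc, h2, mul_assoc]
    exact congrArg (fun f : H →L[ℂ] H => f y) h3
  have hAx : A x ≠ 0 := by
    intro h
    have h1 : inner ℂ (A x) x = inner ℂ (k x) (k x) := by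
      rw [hA]
      exact adjoint_inner_left k x (k x)
    rw [h, inner_zero_left] at h1
    exact hkx (inner_self_eq_zero.1 h1.symm)
  have hAP : ∀ v ∈ Nᗮ, A v ∈ Nᗮ := fun v hv =>
    hPinv _ hksT _ (hPinv _ hkT _ hv)
  -- the restriction of `A` to `P = Nᗮ` has a nonzero eigenvalue
  let S : Nᗮ →L[ℂ] Nᗮ := A.restrict hAP
  have hScpt : IsCompactOperator S := hAcpt.restrict' hAP
  have hSsym : (S : Nᗮ →ₗ[ℂ] Nᗮ).IsSymmetric := hAsym.restrict_invariant hAP
  have hS0 : S ≠ 0 := by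
    intro h
    have h1 : S ⟨x, hxP⟩ = 0 := by rw [h]; rfl
    exact hAx (congrArg Subtype.val h1)
  obtain ⟨μ, hμ, hμ0⟩ : ∃ μ : ℂ, HasEigenvalue (S : End ℂ Nᗮ) μ ∧ μ ≠ 0 := by
    by_contra h
    push Not at h
    exact hS0 ((eq_zero_of_forall_hasEigenvalue_eq_zero hScpt hSsym).1 h)
  obtain ⟨⟨v₀, hv₀P⟩, hv₀⟩ := hμ.exists_hasEigenvector
  have hv₀eq : A v₀ = μ • v₀ := congrArg Subtype.val hv₀.apply_eq_smul
  have hv₀ne : v₀ ≠ 0 := fun h => hv₀.2 (Subtype.ext h)
  -- the finite-dimensional invariant subspace `W`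
  let W : Submodule ℂ H := Nᗮ ⊓ eigenspace (A : End ℂ H) μ
  have hWne : W ≠ ⊥ :=
    (Submodule.ne_bot_iff _).2 ⟨v₀, ⟨hv₀P, mem_eigenspace_iff.2 hv₀eq⟩, hv₀ne⟩
  have : FiniteDimensional ℂ (eigenspace (A : End ℂ H) μ) :=
    finite_dimensional_eigenspace hAcpt μ hμ0
  have : FiniteDimensional ℂ W := Submodule.finiteDimensional_of_le inf_le_right
  obtain ⟨v, hvW, hv0, hv⟩ := exists_joint_eigenvector_of_finiteDimensional751
    ((fun T : H →L[ℂ] H => (T : H →ₗ[ℂ] H)) '' 𝒯)
    (by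
      rintro _ ⟨S₁, hS₁, rfl⟩ _ ⟨S₂, hS₂, rfl⟩ y
      exact congrArg (fun f : H →L[ℂ] H => f y) (hcomm S₁ hS₁ S₂ hS₂))
    W hWne
    (by
      rintro _ ⟨T, hT, rfl⟩ w hw
      refine ⟨hPinv T hT w hw.1, mem_eigenspace_iff.2 ?_⟩
      have h1 : A w = μ • w := mem_eigenspace_iff.1 hw.2
      change A (T w) = μ • T w
      rw [hAcomm T hT w, h1, map_smul])
  exact ⟨v, hvW.1, hv0, fun T hT => hv _ ⟨T, hT, rfl⟩⟩

/-- A maximal orthonormal set of joint eigenvectors has trivial orthogonal complement. -/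
theorem exists_orthonormal_joint_eigen751 (𝒯 Kc : Set (H →L[ℂ] H))
    (hcomm : ∀ S ∈ 𝒯, ∀ T ∈ 𝒯, S * T = T * S)
    (hstar : ∀ T ∈ 𝒯, adjoint T ∈ 𝒯)
    (hK : Kc ⊆ 𝒯) (hcpt : ∀ k ∈ Kc, IsCompactOperator k)
    (hnd : ∀ x : H, (∀ k ∈ Kc, k x = 0) → x = 0) :
    ∃ s : Set H, Orthonormal ℂ (Subtype.val : s → H) ∧
      (∀ x ∈ s, ∀ T ∈ 𝒯, ∃ c : ℂ, T x = c • x) ∧ (Submodule.span ℂ s)ᗮ = ⊥ := by
  classical
  -- Zorn: a maximal orthonormal set of joint eigenvectors
  obtain ⟨s, -, hsmax⟩ := zorn_subset_nonempty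
    {b : Set H | (∀ x ∈ b, ∀ T ∈ 𝒯, ∃ c : ℂ, T x = c • x) ∧
      Orthonormal ℂ (Subtype.val : b → H)}
    (by
      refine fun c hc cc _ => ⟨⋃₀ c, ⟨?_, ?_⟩, fun _ => Set.subset_sUnion_of_mem⟩
      · rintro x ⟨b, hb, hxb⟩
        exact (hc hb).1 x hxb
      · exact orthonormal_sUnion_of_directed cc.directedOn fun x xc => (hc xc).2)
    ∅ ⟨fun x hx => absurd hx (Set.notMem_empty x), orthonormal_empty ℂ H⟩
  obtain ⟨⟨hsJ, hso⟩, hmax⟩ := hsmax
  refine ⟨s, hso, hsJ, ?_⟩
  by_contra hP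
  -- `span s` is invariant
  have hN : ∀ T ∈ 𝒯, ∀ y ∈ Submodule.span ℂ s, T y ∈ Submodule.span ℂ s := by
    intro T hT y hy
    induction hy using Submodule.span_induction with
    | mem x hx =>
      obtain ⟨c, hc⟩ := hsJ x hx T hT
      rw [hc]
      exact Submodule.smul_mem _ _ (Submodule.subset_span hx)
    | zero => simp
    | add x y _ _ hx hy => rw [map_add]; exact Submodule.add_mem _ hx hy
    | smul a x _ hx => rw [map_smul]; exact Submodule.smul_mem _ _ hx
  obtain ⟨v, hvP, hv0, hvJ⟩ :=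
    exists_joint_eigenvector_orthogonal751 𝒯 Kc hcomm hstar hK hcpt hnd _ hN hP
  -- normalise
  have hnv : (‖v‖ : ℂ) ≠ 0 := by
    simpa using hv0
  set u : H := ((‖v‖ : ℂ)⁻¹) • v with hu
  have huP : u ∈ (Submodule.span ℂ s)ᗮ := Submodule.smul_mem _ _ hvP
  have hun : ‖u‖ = 1 := by
    rw [hu, norm_smul, norm_inv, Complex.norm_real, norm_norm,
      inv_mul_cancel₀ (norm_ne_zero_iff.2 hv0)]
  have huJ : ∀ T ∈ 𝒯, ∃ c : ℂ, T u = c • u := by
    intro T hT
    obtain ⟨c, hc⟩ := hvJ T hT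
    exact ⟨c, by rw [hu, map_smul, hc, smul_comm]⟩
  have hus : u ∉ s := by
    intro h
    have h1 : inner ℂ u u = 0 :=
      (Submodule.mem_orthogonal _ _).1 huP u (Submodule.subset_span h)
    have h2 : u = 0 := inner_self_eq_zero.1 h1
    rw [h2, norm_zero] at hun
    exact zero_ne_one hun
  have hins : insert u s ∈ {b : Set H | (∀ x ∈ b, ∀ T ∈ 𝒯, ∃ c : ℂ, T x = c • x) ∧
      Orthonormal ℂ (Subtype.val : b → H)} := by
    refine ⟨?_, ?_⟩
    · rintro x (rfl | hx)
      · exact huJ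
      · exact hsJ x hx
    · rw [orthonormal_subtype_iff_ite] at hso ⊢
      rintro a (rfl | ha) b (rfl | hb)
      · simp [inner_self_eq_norm_sq_to_K, hun]
      · have hab : u ≠ b := fun h => hus (h ▸ hb)
        rw [if_neg hab]
        have := (Submodule.mem_orthogonal _ _).1 huP b (Submodule.subset_span hb)
        rw [← inner_conj_symm, this, map_zero]
      · have hab : a ≠ u := fun h => hus (h ▸ ha)
        rw [if_neg hab]
        exact (Submodule.mem_orthogonal _ _).1 huP a (Submodule.subset_span ha)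
      · exact hso a ha b hb
  exact hus (hmax hins (Set.subset_insert u s) (Set.mem_insert u s))

universe u

/-- **Joint eigenbasis.**  A commuting, adjoint-closed set `𝒯` of bounded operators on a complex
Hilbert space which contains a set `Kc` of compact operators with trivial common kernel admits a
Hilbert basis of joint eigenvectors. -/
theorem exists_hilbertBasis_joint_eigen751 {H : Type u} [NormedAddCommGroup H]
    [InnerProductSpace ℂ H] [CompleteSpace H] (𝒯 Kc : Set (H →L[ℂ] H))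
    (hcomm : ∀ S ∈ 𝒯, ∀ T ∈ 𝒯, S * T = T * S)
    (hstar : ∀ T ∈ 𝒯, adjoint T ∈ 𝒯)
    (hK : Kc ⊆ 𝒯) (hcpt : ∀ k ∈ Kc, IsCompactOperator k)
    (hnd : ∀ x : H, (∀ k ∈ Kc, k x = 0) → x = 0) :
    ∃ (ι : Type u) (b : HilbertBasis ι ℂ H), ∀ i : ι, ∀ T ∈ 𝒯, ∃ c : ℂ, T (b i) = c • b i := by
  obtain ⟨s, hso, hsJ, hsp⟩ := exists_orthonormal_joint_eigen751 𝒯 Kc hcomm hstar hK hcpt hnd
  refine ⟨s, HilbertBasis.mkOfOrthogonalEqBot hso (by rwa [Subtype.range_coe]), ?_⟩
  intro i T hT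
  rw [HilbertBasis.coe_mkOfOrthogonalEqBot]
  exact hsJ i i.2 T hT

/-- Every joint eigenspace of a set of operators which contains a set of compact operators with
trivial common kernel is finite-dimensional. -/
theorem finiteDimensional_iInf_eigenspace751 (𝒯 Kc : Set (H →L[ℂ] H))
    (hK : Kc ⊆ 𝒯) (hcpt : ∀ k ∈ Kc, IsCompactOperator k)
    (hnd : ∀ x : H, (∀ k ∈ Kc, k x = 0) → x = 0) (χ : (H →L[ℂ] H) → ℂ) :
    FiniteDimensional ℂ
      (⨅ T ∈ 𝒯, eigenspace ((T : H →L[ℂ] H) : End ℂ H) (χ T) : Submodule ℂ H) := by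
  set E : Submodule ℂ H := ⨅ T ∈ 𝒯, eigenspace ((T : H →L[ℂ] H) : End ℂ H) (χ T) with hE
  have hmem : ∀ x ∈ E, ∀ T ∈ 𝒯, T x = χ T • x := by
    intro x hx T hT
    have h1 : x ∈ eigenspace ((T : H →L[ℂ] H) : End ℂ H) (χ T) := by
      have := (Submodule.mem_iInf _).1 hx T
      exact (Submodule.mem_iInf _).1 this hT
    exact mem_eigenspace_iff.1 h1
  by_cases hbot : E = ⊥
  · rw [hbot]
    infer_instance
  · obtain ⟨x, hxE, hx0⟩ := (Submodule.ne_bot_iff _).1 hbot
    obtain ⟨k, hk, hkx⟩ : ∃ k ∈ Kc, k x ≠ 0 := by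
      by_contra h
      push Not at h
      exact hx0 (hnd x h)
    have hχ : χ k ≠ 0 := by
      intro h
      apply hkx
      rw [hmem x hxE k (hK hk), h, zero_smul]
    have : FiniteDimensional ℂ (eigenspace ((k : H →L[ℂ] H) : End ℂ H) (χ k)) :=
      finite_dimensional_eigenspace (hcpt k hk) (χ k) hχ
    have hle : E ≤ eigenspace ((k : H →L[ℂ] H) : End ℂ H) (χ k) := fun y hy =>
      mem_eigenspace_iff.2 (hmem y hy k (hK hk))
    exact Submodule.finiteDimensional_of_le hle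

/-- A joint eigenvector of a commuting adjoint-closed set: the eigenvalue of the adjoint is the
conjugate eigenvalue. -/
theorem adjoint_apply_of_eigen751 (T : H →L[ℂ] H) (hT : adjoint T * T = T * adjoint T)
    (x : H) (c : ℂ) (hx : T x = c • x) : adjoint T x = (starRingEnd ℂ) c • x := by
  -- `S = T - c` is normal and kills `x`, so `S†` kills `x`
  set S : H →L[ℂ] H := T - c • (1 : H →L[ℂ] H) with hS
  have hSadj : adjoint S = adjoint T - (starRingEnd ℂ) c • (1 : H →L[ℂ] H) := by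
    rw [hS, map_sub, LinearIsometryEquiv.map_smulₛₗ]
    congr 2
    rw [← star_eq_adjoint, star_one]
  have hSx : S x = 0 := by
    simp [hS, hx]
  have hnorm : adjoint S * S = S * adjoint S := by
    rw [hSadj, hS]
    simp only [sub_mul, mul_sub, smul_mul_assoc, mul_smul_comm, one_mul, mul_one, hT, smul_sub,
      smul_smul, mul_comm c ((starRingEnd ℂ) c)]
    abel
  have h1 : inner ℂ (adjoint S x) (adjoint S x) = inner ℂ (S x) (S x) := by
    rw [adjoint_inner_left, ← adjoint_inner_right (A := S)]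
    congr 1
    exact (congrArg (fun f : H →L[ℂ] H => f x) hnorm).symm
  rw [hSx, inner_zero_left] at h1
  have h2 : adjoint S x = 0 := inner_self_eq_zero.1 h1
  rw [hSadj] at h2
  simpa [sub_eq_zero] using h2

omit [CompleteSpace H] in
/-- In a separable space every orthonormal family is countable. -/
theorem countable_of_orthonormal751 [TopologicalSpace.SeparableSpace H] {ι : Type*}
    {v : ι → H} (hv : Orthonormal ℂ v) : Countable ι := by
  classical
  have hd : ∀ i : ι, ∃ n : ℕ, dist (v i) (TopologicalSpace.denseSeq H n) < 1 / 2 := fun i =>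
    (TopologicalSpace.denseRange_denseSeq H).exists_dist_lt (v i) (by norm_num)
  choose f hf using hd
  refine Function.Injective.countable (f := f) fun i j hij => ?_
  by_contra hne
  have h1 : dist (v i) (v j) < 1 := by
    calc dist (v i) (v j) ≤ dist (v i) (TopologicalSpace.denseSeq H (f i))
          + dist (TopologicalSpace.denseSeq H (f i)) (v j) := dist_triangle _ _ _
      _ < 1 / 2 + 1 / 2 := by
          refine add_lt_add (hf i) ?_
          rw [hij, dist_comm]
          exact hf j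
      _ = 1 := by norm_num
  have h2 : ‖v i - v j‖ ^ 2 = 2 := by
    rw [@norm_sub_sq ℂ, hv.1 i, hv.1 j, hv.2 hne]
    norm_num
  rw [dist_eq_norm] at h1
  have h3 : ‖v i - v j‖ ^ 2 < 1 := by
    have h0 : 0 ≤ ‖v i - v j‖ := norm_nonneg _
    nlinarith
  linarith

/-- **Joint eigenbasis, separable case**: the basis is indexed by a countable type. -/
theorem exists_hilbertBasis_joint_eigen_countable751 {H : Type u} [NormedAddCommGroup H]
    [InnerProductSpace ℂ H] [CompleteSpace H] [TopologicalSpace.SeparableSpace H]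
    (𝒯 Kc : Set (H →L[ℂ] H))
    (hcomm : ∀ S ∈ 𝒯, ∀ T ∈ 𝒯, S * T = T * S)
    (hstar : ∀ T ∈ 𝒯, adjoint T ∈ 𝒯)
    (hK : Kc ⊆ 𝒯) (hcpt : ∀ k ∈ Kc, IsCompactOperator k)
    (hnd : ∀ x : H, (∀ k ∈ Kc, k x = 0) → x = 0) :
    ∃ (ι : Type u) (_ : Countable ι) (b : HilbertBasis ι ℂ H),
      ∀ i : ι, ∀ T ∈ 𝒯, ∃ c : ℂ, T (b i) = c • b i ∧
        adjoint T (b i) = (starRingEnd ℂ) c • b i := by
  obtain ⟨ι, b, hb⟩ := exists_hilbertBasis_joint_eigen751 𝒯 Kc hcomm hstar hK hcpt hnd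
  refine ⟨ι, countable_of_orthonormal751 b.orthonormal, b, fun i T hT => ?_⟩
  obtain ⟨c, hc⟩ := hb i T hT
  exact ⟨c, hc, adjoint_apply_of_eigen751 T (hcomm _ (hstar T hT) T hT) _ c hc⟩

end Hilbert

end Fermat.Agent.LT.H751
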